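import Mathlib
import Fermat.Agent.MU.S36.Ig.EpsGen
import Fermat.Agent.MU.S48.W.G.Red.Defs
import Fermat.Agent.MU.S48.W.G.Red.Igusa.AbsDefs
import Fermat.Agent.MU.S48.W.G.Red.Igusa.DistF

section MergeWrap_S48_W_G_Red_Igusa_Group -- from S48/W/G/Red/Igusa/Group.lean

set_option autoImplicit false

noncomputable section

namespace Fermat.Agent.S48WG

open UpperHalfPlane Fermat.Agent.S24 Fermat.Agent.S48WKron
open scoped MatrixGroups

instance instNormalGammaW (M : ℕ) : (CongruenceSubgroup.Gamma M).Normal :=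
  CongruenceSubgroup.Gamma_normal M

/-- the finite group `SL₂(ℤ) / Γ(M)`. -/
abbrev GW (M : ℕ) : Type := SL(2, ℤ) ⧸ CongruenceSubgroup.Gamma M

instance instFiniteGW (M : ℕ) [NeZero M] : Finite (GW M) :=
  Subgroup.finite_quotient_of_finiteIndex

/-- the action of `SL₂(ℤ)` on `AHb M` as a homomorphism to the ring automorphisms. -/
def actHomW (M : ℕ) [NeZero M] : SL(2, ℤ) →* RingAut (AHb M) :=
  MulSemiringAction.toRingAut SL(2, ℤ) (AHb M)

theorem gamma_le_ker_actHomW (M : ℕ) [NeZero M] :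
    CongruenceSubgroup.Gamma M ≤ (actHomW M).ker := by
  intro γ hγ
  rw [MonoidHom.mem_ker]
  ext f : 1
  exact Subtype.ext (smul_eq_of_mem_AHb f.2 hγ)

/-- the action of `SL₂(ℤ) / Γ(M)` on `AHb M`, as a homomorphism. -/
def actHomGW (M : ℕ) [NeZero M] : GW M →* RingAut (AHb M) :=
  QuotientGroup.lift (CongruenceSubgroup.Gamma M) (actHomW M) (gamma_le_ker_actHomW M)

instance instMulSemiringActionGW (M : ℕ) [NeZero M] : MulSemiringAction (GW M) (AHb M) :=
  MulSemiringAction.compHom (AHb M) (actHomGW M)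

theorem GW.mk_smul (M : ℕ) [NeZero M] (γ : SL(2, ℤ)) (f : AHb M) :
    (QuotientGroup.mk γ : GW M) • f = γ • f := rfl

instance instSMulCommClassGW (M : ℕ) [NeZero M] : SMulCommClass (GW M) Kbar (AHb M) where
  smul_comm g a f := by
    induction g using QuotientGroup.induction_on with
    | H γ => rw [GW.mk_smul, GW.mk_smul, smul_comm]

end Fermat.Agent.S48WG
end
end MergeWrap_S48_W_G_Red_Igusa_Group

section MergeWrap_S48_W_G_Red_Igusa_LeafDefs -- from S48/W/G/Red/Igusa/LeafDefs.lean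

set_option autoImplicit false
set_option synthInstance.maxHeartbeats 400000

noncomputable section

namespace Fermat.Agent.S48WG

open UpperHalfPlane ModularCurve IntermediateField
open Fermat.Agent.S24 Fermat.Agent.S48W Fermat.Agent.S48WA1 Fermat.Agent.S48WKron
open Fermat.Agent.GaussInt
open scoped MatrixGroups Real

/-! ### the two families -/

/-- `y₁ = (F_{(1,0)} - j) / 12`. -/
def yOneFun (M : ℕ) : Fun :=
  algebraMap Kbar Fun (12⁻¹ : Kbar) * (frickeFun M 1 0 - jFun)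

/-- the family `(j(dτ))_{d ∣ M}`, indexed by `i = d - 1 ∈ Fin M` (zero if `d ∤ M`). -/
def jdFam (M : ℕ) (i : Fin M) : Fun :=
  if (i.val + 1) ∣ M then jd (i.val + 1) else 0

/-- the expansions of the family `jdFam`. -/
def jdFamExp (M : ℕ) [NeZero M] (i : Fin M) : LaurentSeries Kbar :=
  if (i.val + 1) ∣ M then qExpand Kbar (M * (i.val + 1)) (jqModC Kbar) else 0

/-- `(igF v - j(q^M)) / 12`, generic in a field `K ∋ ζ`. -/
def igY {K : Type*} [Field K] [Algebra ℚ K] (M : ℕ) [NeZero M] (ζ : K) (r s : ZMod M) :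
    LaurentSeries K :=
  HahnSeries.C (12⁻¹ : K) * (igF M ζ r s - coeffEmb K (qExpand ℚ M jq))

/-! ### group theory -/

/-- (IG-NC) the conjugates of `T` generate `SL₂(ℤ)`. -/
def IgNCStatement : Prop :=
  Subgroup.normalClosure {(ModularGroup.T : SL(2, ℤ))} = ⊤

/-- (IG-CONJ) `h T h⁻¹ ≡ T^n` modulo `Γ(M)` for `h ∈ Γ₀(M)` (`n = a²`). -/
def IgConjStatement : Prop :=
  ∀ (M : ℕ) [NeZero M] (h : SL(2, ℤ)), h ∈ CongruenceSubgroup.Gamma0 M →
    ∃ n : ℤ, h * ModularGroup.T * h⁻¹ * (ModularGroup.T ^ n)⁻¹ ∈ CongruenceSubgroup.Gamma M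

/-! ### the family `y₀` -/

/-- (IG-J0) integrality of the translates of `j(dτ)`, and distinctness of the reductions of the
translates of `j(Mτ)`. -/
def IgJ0Statement : Prop :=
  ∀ (M : ℕ) [NeZero M] (p : ℕ), p.Prime → ¬ p ∣ M →
    ∀ A : ValuationSubring Kbar, A.LiesOverPrime p →
      (∀ (d : ℕ) [NeZero d], d ∣ M → ∀ (g : SL(2, ℤ)) (a : LaurentSeries Kbar),
        HasExp M (g • jd d) a → IsIntK A a) ∧
      ∀ (g g' : SL(2, ℤ)) (a a' : LaurentSeries Kbar),
        HasExp M (g • jd M) a → HasExp M (g' • jd M) a' → IsRedZero A (a - a') →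
          g⁻¹ * g' ∈ CongruenceSubgroup.Gamma0 M

/-- (IG-B) **cluster B**: `k(j̄(u^M))(j̄(u^{M d}) : d ∣ M) / k(j̄(u^M))` is separable of degree
`≥ [SL₂(ℤ) : Γ₀(M)]` (image of `modularFunctionFieldFullC k M` under `q ↦ u^M`;
`GaussVal.finrank_fullC_of_isAlgClosed`, `RRMod.isSeparable_fullC'`). -/
def IgBStatement : Prop :=
  ∀ (M : ℕ) [NeZero M] (p : ℕ), p.Prime → ¬ p ∣ M →
    ∀ A : ValuationSubring Kbar, A.LiesOverPrime p →
      Algebra.IsSeparable
          ↥((IsLocalRing.ResidueField A)⟮redSer A (qExpand Kbar M (jqModC Kbar))⟯)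
          ↥(redField A (qExpand Kbar M (jqModC Kbar)) (jdFamExp M)) ∧
        (CongruenceSubgroup.Gamma0 M).index ≤
          Module.finrank
            ↥((IsLocalRing.ResidueField A)⟮redSer A (qExpand Kbar M (jqModC Kbar))⟯)
            ↥(redField A (qExpand Kbar M (jqModC Kbar)) (jdFamExp M))

/-! ### the family `y₁` -/

/-- (IG-FEXP) the expansion of the Fricke function `F_{(r,s)}` is `igF M ζ r s`. -/
def IgFExpStatement : Prop :=
  ∀ (M : ℕ) [NeZero M] (ζ : Kbar), iota ζ = Complex.exp (2 * π * Complex.I / M) →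
    ∀ r s : ℤ, IsNZ M r s →
      HasExp M (frickeFun M r s) (igF M ζ ((r : ℤ) : ZMod M) ((s : ℤ) : ZMod M))

/-- (IG-Y) `igY v` is `A`-integral, and `v ↦ igY v` is injective modulo `±` and modulo `𝔪_A`,
if `M` is a unit of `A` (NO hypothesis on `2, 3`):
`igY v - igY v' = igE · (W_v - W_v')`, `wp_v = 1 - 24 Σ σ₁(n) Q^n + 12 W_v`, and
`(E₆ wp_v - E₄²) / 12 = W_v - 2 S₁ - 42 S₅ wp_v - 40 S₃ - 4800 S₃²`. -/
def IgYStatement : Prop :=
  ∀ (K : Type) [Field K] [Algebra ℚ K] (A : ValuationSubring K) (M : ℕ) [NeZero M] (ζ : K),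
    IsPrimitiveRoot ζ M → A.valuation (M : K) = 1 →
      (∀ r s : ZMod M, ¬ (r = 0 ∧ s = 0) → IsIntK A (igY M ζ r s)) ∧
      ∀ r s r' s' : ZMod M, ¬ (r = 0 ∧ s = 0) → ¬ (r' = 0 ∧ s' = 0) →
        IsRedZero A (igY M ζ r s - igY M ζ r' s') →
          (r = r' ∧ s = s') ∨ (r = -r' ∧ s = -s')

/-- (IG-F1) `y₁` lies in the ambient ring, its translates have `A`-integral expansions, and
different translates have different reductions. -/
def IgF1Statement : Prop :=
  ∀ (M : ℕ) [NeZero M], 2 ≤ M →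
    IsAHb M (yOneFun M) ∧
    ∀ (p : ℕ), p.Prime → ¬ p ∣ M → ∀ A : ValuationSubring Kbar, A.LiesOverPrime p →
      (∀ (g : SL(2, ℤ)) (a : LaurentSeries Kbar), HasExp M (g • yOneFun M) a → IsIntK A a) ∧
      ∀ (g g' : SL(2, ℤ)) (a a' : LaurentSeries Kbar),
        HasExp M (g • yOneFun M) a → HasExp M (g' • yOneFun M) a' → IsRedZero A (a - a') →
          g • yOneFun M = g' • yOneFun M

/-! ### characteristic zero, and the deliverable -/

/-- (IG-DEG0) `[ℚ̄ F₁(M) : ℚ̄(j(q^M))] ≤ [SL₂(ℤ) : Stab(y₁)]`, and the extension is finite. -/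
def IgDeg0Statement : Prop :=
  ∀ (M : ℕ) [NeZero M], 2 ≤ M →
    ∀ x : ↥(FOneBar M), (x : LaurentSeries Kbar) = qExpand Kbar M (jqModC Kbar) →
      FiniteDimensional ↥(Kbar⟮x⟯) ↥(FOneBar M) ∧
        Module.finrank ↥(Kbar⟮x⟯) ↥(FOneBar M) ≤
          (MulAction.stabilizer SL(2, ℤ) (yOneFun M)).index

/-- (IG-INST) **the deliverable of G-IGUSA**: `x = j(q^M)` is a base function of the Gauss ring
of `ℚ̄ F₁(M)` at every place over `p ∤ M`. -/
def IgusaOneStatement : Prop :=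
  ∀ (M : ℕ) [NeZero M], 2 ≤ M → ∀ (p : ℕ), p.Prime → ¬ p ∣ M →
    ∀ A : ValuationSubring Kbar, A.LiesOverPrime p →
      ∃ (x : LaurentSeries Kbar) (hx : x ∈ gaussSub A (laurentBaseChange Kbar (FOne M))),
        x = qExpand Kbar M (jqModC Kbar) ∧ IsBaseFun A (FOne M) hx

end Fermat.Agent.S48WG
end
end MergeWrap_S48_W_G_Red_Igusa_LeafDefs
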