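import Mathlib
import Fermat.Agent.MU.S48.W.G.Red.Igusa.LeafDefs
import Fermat.Agent.Lib.GoodRed.Defs

section MergeWrap_S48_W_G_Red_Igusa_DatDefs -- from S48/W/G/Red/Igusa/DatDefs.lean

set_option autoImplicit false
set_option synthInstance.maxHeartbeats 400000

noncomputable section

namespace Fermat.Agent.S48WG

open UpperHalfPlane ModularCurve AlgebraicCurve IntermediateField
open Fermat.Agent.S24 Fermat.Agent.S48W Fermat.Agent.S48WA1 Fermat.Agent.S48WKron
open Fermat.Agent.GaussInt Fermat.Agent.RR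
open scoped MatrixGroups Real

/-- (IG-DAT-J) the family `y₀` in the ambient ring. -/
def IgDatJStatement : Prop :=
  ∀ (M : ℕ) [NeZero M] (p : ℕ), p.Prime → ¬ p ∣ M →
    ∀ A : ValuationSubring Kbar, A.LiesOverPrime p →
      ∃ y₀ : Fin M → AHb M, (∀ i, expAHb M (y₀ i) = jdFamExp M i) ∧
        IgDistinct A (expAHb M) y₀
          ((CongruenceSubgroup.Gamma0 M).map (QuotientGroup.mk' (CongruenceSubgroup.Gamma M)))

/-- (IG-DAT-Y) the element `y₁` in the ambient ring. -/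
def IgDatYStatement : Prop :=
  ∀ (M : ℕ) [NeZero M], 2 ≤ M → ∀ (p : ℕ), p.Prime → ¬ p ∣ M →
    ∀ A : ValuationSubring Kbar, A.LiesOverPrime p →
      ∃ y₁ : Unit → AHb M, ((y₁ () : AHb M) : Fun) = yOneFun M ∧
        expAHb M (y₁ ()) =
          HahnSeries.C (12⁻¹ : Kbar) *
            (coeffEmb Kbar (fricke M 1) - qExpand Kbar M (jqModC Kbar)) ∧
        IgDistinct A (expAHb M) y₁
          ((MulAction.stabilizer SL(2, ℤ) (yOneFun M)).map
            (QuotientGroup.mk' (CongruenceSubgroup.Gamma M)))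

/-- (IG-GLUE) from the degree of `k(x̄)(ȳ) / k(x̄)` inside `k((u))` to `IsBaseFun`. -/
def IgGlueStatement : Prop :=
  ∀ (A : ValuationSubring Kbar) (F₀ : IntermediateField ℚ (LaurentSeries ℚ)) (ℓ : ℕ),
    ℓ.Prime → A.LiesOverPrime ℓ → IsIntGen A F₀ →
    ∀ (x : LaurentSeries Kbar) (hx : x ∈ gaussSub A (laurentBaseChange Kbar F₀)),
      IsIntK A x → x.order < 0 → x.leadingCoeff = 1 →
      ∀ (ι : Type) [Finite ι] (y : ι → LaurentSeries Kbar),
        (∀ i, y i ∈ laurentBaseChange Kbar F₀) → (∀ i, IsIntK A (y i)) →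
        ∀ n : ℕ,
          FiniteDimensional ↥(Kbar⟮barElt hx⟯) ↥(laurentBaseChange Kbar F₀) →
          Module.finrank ↥(Kbar⟮barElt hx⟯) ↥(laurentBaseChange Kbar F₀) ≤ n →
          Algebra.IsSeparable ↥((IsLocalRing.ResidueField A)⟮redSer A x⟯) ↥(redField A x y) →
          FiniteDimensional ↥((IsLocalRing.ResidueField A)⟮redSer A x⟯) ↥(redField A x y) →
          n ≤ Module.finrank ↥((IsLocalRing.ResidueField A)⟮redSer A x⟯) ↥(redField A x y) →
          IsBaseFun A F₀ hx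

/-- (G-BRANCH) the fibres of `x = j(q^M)` over `c ≠ 0, 1728` are unramified. -/
def BranchOneStatement : Prop :=
  ∀ (M : ℕ) [NeZero M], 2 ≤ M →
    ∀ x : ↥(FOneBar M), (x : LaurentSeries Kbar) = qExpand Kbar M (jqModC Kbar) →
      ∀ c : Kbar, c ≠ 0 → c ≠ 1728 →
        Fermat.Agent.GoodRed.fibreCard Kbar x c = Module.finrank ↥(Kbar⟮x⟯) ↥(FOneBar M)

/-- the good reduction input at every place over a prime `p ≥ 5`, `p ∤ M`. -/
def GoodRedOneFive (M : ℕ) [NeZero M] : Prop :=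
  ∀ (p : ℕ), p.Prime → 5 ≤ p → ¬ p ∣ M → ∀ A : ValuationSubring Kbar, A.LiesOverPrime p →
    RedInput A (FOne M)

/-- (G-ASM) the assembly of G-RED at `p ≥ 5`. -/
def GAsmFiveStatement : Prop :=
  IgusaOneStatement → BranchOneStatement → ∀ (M : ℕ) [NeZero M], 2 ≤ M → GoodRedOneFive M

end Fermat.Agent.S48WG
end
end MergeWrap_S48_W_G_Red_Igusa_DatDefs
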