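import Mathlib
import Fermat.Agent.MU.S48.W.G.Red.Igusa.AbsDefs

section MergeWrap_S48_W_G_Red_Igusa_AbsRed -- from S48/W/G/Red/Igusa/AbsRed.lean

set_option autoImplicit false

noncomputable section

namespace Fermat.Agent.S48WG

open ModularCurve HahnSeries Polynomial IntermediateField Fermat.Agent.GaussInt

section Series

variable {K : Type*} [Field K] (A : ValuationSubring K)

theorem isIntK_mem_gaussSub {f : LaurentSeries K} (h : IsIntK A f) :
    f ∈ gaussSub A (⊤ : IntermediateField K (LaurentSeries K)) := by
  have h1 : emb A (liftA A f h) ∈ (⊤ : IntermediateField K (LaurentSeries K)) :=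
    IntermediateField.mem_top
  have h2 := emb_mem_gaussSub (A := A) h1
  have h3 : emb A (liftA A f h) = f := emb_liftA A f h
  rw [h3] at h2
  exact h2

/-- the residue of an integral series is the coefficientwise reduction. -/
theorem redSer_of_isIntK {f : LaurentSeries K} (h : IsIntK A f) :
    redSer A f = red A (liftA A f h) := by
  have h1 : emb A (liftA A f h) ∈ (⊤ : IntermediateField K (LaurentSeries K)) :=
    IntermediateField.mem_top
  have h2 := gaussResFun_emb (A := A) h1
  have h3 : emb A (liftA A f h) = f := emb_liftA A f h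
  rw [h3] at h2
  exact h2

/-- the residue of an integral series vanishes iff all its coefficients are in `𝔪_A`. -/
theorem redSer_eq_zero_iff {f : LaurentSeries K} (h : IsIntK A f) :
    redSer A f = 0 ↔ IsRedZero A f := by
  rw [redSer_of_isIntK A h]
  constructor
  · intro h0 n
    have h1 : (red A (liftA A f h)).coeff n = 0 := by rw [h0]; rfl
    rw [red_coeff, IsLocalRing.residue_eq_zero_iff, ValuationSubring.valuation_lt_one_iff] at h1
    exact h1
  · intro h0
    ext n
    rw [red_coeff, HahnSeries.coeff_zero, IsLocalRing.residue_eq_zero_iff,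
      ValuationSubring.valuation_lt_one_iff]
    exact h0 n

theorem redSer_algebraMap {c : K} (hc : c ∈ A) :
    redSer A (algebraMap K (LaurentSeries K) c) =
      algebraMap (IsLocalRing.ResidueField A) (LaurentSeries (IsLocalRing.ResidueField A))
        (IsLocalRing.residue A ⟨c, hc⟩) :=
  gaussResFun_algebraMap hc

end Series

section Ring

variable {K : Type*} [Field K] (A : ValuationSubring K) {R : Type*} [CommRing R] [Algebra K R]
  {G : Type*} [Group G] [MulSemiringAction G R] (ex : R →ₐ[K] LaurentSeries K)

/-- the reduction map of `B`. -/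
def igRed : ↥(igSub A G ex) →+* LaurentSeries (IsLocalRing.ResidueField A) :=
  (gaussRes A (⊤ : IntermediateField K (LaurentSeries K))).comp
    (((ex : R →+* LaurentSeries K).comp (igSub A G ex).subtype).codRestrict
      (gaussSub A (⊤ : IntermediateField K (LaurentSeries K)))
      (fun b => isIntK_mem_gaussSub A (isIntK_of_mem_igSub A b.2)))

theorem igRed_apply (b : ↥(igSub A G ex)) : igRed A ex b = redSer A (ex (b : R)) := rfl

theorem igRed_eq_zero_iff (b : ↥(igSub A G ex)) :
    igRed A ex b = 0 ↔ IsRedZero A (ex (b : R)) := by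
  rw [igRed_apply]
  exact redSer_eq_zero_iff A (isIntK_of_mem_igSub A b.2)

theorem mem_ker_igRed (b : ↥(igSub A G ex)) :
    b ∈ RingHom.ker (igRed A ex) ↔ IsRedZero A (ex (b : R)) := by
  rw [RingHom.mem_ker]
  exact igRed_eq_zero_iff A ex b

/-- the action of `G` on `B`. -/
instance igAction : MulSemiringAction G ↥(igSub A G ex) where
  smul g b := ⟨g • (b : R), smul_mem_igSub A b.2 g⟩
  one_smul b := Subtype.ext (one_smul G (b : R))
  mul_smul g h b := Subtype.ext (mul_smul g h (b : R))
  smul_zero g := Subtype.ext (smul_zero g)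
  smul_add g a b := Subtype.ext (smul_add g (a : R) (b : R))
  smul_one g := Subtype.ext (smul_one g)
  smul_mul g a b := Subtype.ext (smul_mul' g (a : R) (b : R))

theorem coe_smul_igSub (g : G) (b : ↥(igSub A G ex)) : ((g • b : ↥(igSub A G ex)) : R) =
    g • (b : R) := rfl

variable [SMulCommClass G K R] (j : R) (hjinv : ∀ g : G, g • j = j) (hj : IsIntK A (ex j))

/-- the structure map `A[X] → B`, `X ↦ j`. -/
def igPoly : Polynomial A →+* ↥(igSub A G ex) :=
  (((Polynomial.aeval j : K[X] →ₐ[K] R) : K[X] →+* R).comp
    (Polynomial.mapRingHom A.subtype)).codRestrict (igSub A G ex)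
    (fun P₀ => aeval_mem_igSub A ex hjinv hj P₀)

theorem coe_igPoly (P₀ : Polynomial A) :
    ((igPoly A ex j hjinv hj P₀ : ↥(igSub A G ex)) : R) =
      Polynomial.aeval j (P₀.map A.subtype) := rfl

theorem smul_igPoly (g : G) (P₀ : Polynomial A) :
    g • igPoly A ex j hjinv hj P₀ = igPoly A ex j hjinv hj P₀ := by
  apply Subtype.ext
  rw [coe_smul_igSub, coe_igPoly]
  have h1 : ∀ (P : K[X]), g • Polynomial.aeval j P = Polynomial.aeval j P := by
    intro P
    induction P using Polynomial.induction_on' with
    | add p q hp hq => rw [map_add, smul_add, hp, hq]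
    | monomial n a =>
      rw [← Polynomial.C_mul_X_pow_eq_monomial, map_mul, map_pow, Polynomial.aeval_C,
        Polynomial.aeval_X, smul_mul', smul_pow', hjinv g, smul_algebraMap]
  exact h1 _

theorem igRed_igPoly_C (a : A) :
    igRed A ex (igPoly A ex j hjinv hj (Polynomial.C a)) =
      algebraMap (IsLocalRing.ResidueField A) (LaurentSeries (IsLocalRing.ResidueField A))
        (IsLocalRing.residue A a) := by
  rw [igRed_apply, coe_igPoly, Polynomial.map_C, Polynomial.aeval_C, AlgHom.commutes]
  exact redSer_algebraMap A a.2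

theorem igRed_igPoly_X :
    igRed A ex (igPoly A ex j hjinv hj Polynomial.X) = redSer A (ex j) := by
  rw [igRed_apply, coe_igPoly, Polynomial.map_X, Polynomial.aeval_X]

end Ring

end Fermat.Agent.S48WG
end
end MergeWrap_S48_W_G_Red_Igusa_AbsRed
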