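import Mathlib
import Fermat.Agent.MU.S48.W.G.Red.Igusa.LeafDefs
import Fermat.Agent.MU.S24.EmbFStab
import Fermat.Agent.S48.W.G.Red.Igusa.DistUnit

section MergeWrap_S48_W_G_Red_Igusa_J0 -- from S48/W/G/Red/Igusa/J0.lean

set_option autoImplicit false

noncomputable section

namespace Fermat.Agent.S48WG

open UpperHalfPlane ModularCurve
open Fermat.Agent.S24 Fermat.Agent.S24.GensExp Fermat.Agent.S24.EmbFStab Fermat.Agent.GaussInt
open scoped MatrixGroups Real

/-! ### roots of unity modulo `𝔪_A` (generic) -/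

section roots

variable {K : Type*} [Field K] (A : ValuationSubring K)

/-- a natural number dividing a unit of `A` is a unit of `A`. -/
theorem ig_val_natCast_of_dvd {M n : ℕ} (hM : A.valuation (M : K) = 1) (h : n ∣ M) :
    A.valuation (n : K) = 1 := by
  obtain ⟨c, rfl⟩ := h
  have h1 : A.valuation (n : K) ≤ 1 := (A.valuation_le_one_iff _).2 (natCast_mem A n)
  have h2 : A.valuation (c : K) ≤ 1 := (A.valuation_le_one_iff _).2 (natCast_mem A c)
  rw [Nat.cast_mul, map_mul] at hM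
  rcases h1.lt_or_eq with hlt | heq
  · exfalso
    have : A.valuation (n : K) * A.valuation (c : K) < 1 := by
      calc _ ≤ A.valuation (n : K) * 1 := mul_le_mul_right h2 _
        _ = A.valuation (n : K) := mul_one _
        _ < 1 := hlt
    exact absurd hM this.ne
  · exact heq

/-- two `M`-th roots of unity which are congruent modulo `𝔪_A` are equal, if `M` is a unit. -/
theorem ig_root_eq_of_val_sub_lt {M : ℕ} (hM0 : M ≠ 0) (hM : A.valuation (M : K) = 1)
    {x y : K} (hx : x ^ M = 1) (hy : y ^ M = 1) (h : A.valuation (x - y) < 1) : x = y := by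
  have hy0 : y ≠ 0 := by
    intro h0
    rw [h0, zero_pow hM0] at hy
    exact zero_ne_one hy
  by_contra hne
  set w : K := x * y⁻¹ with hw
  have hwM : w ^ M = 1 := by rw [hw, mul_pow, inv_pow, hx, hy, inv_one, mul_one]
  have hw1 : w ≠ 1 := by
    intro h1
    apply hne
    have := congrArg (· * y) h1
    simpa [hw, mul_assoc, inv_mul_cancel₀ hy0] using this
  have hn : orderOf w ∣ M := orderOf_dvd_of_pow_eq_one hwM
  have hn0 : orderOf w ≠ 0 := fun h0 => hM0 (by rw [h0] at hn; exact zero_dvd_iff.1 hn)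
  have : NeZero (orderOf w) := ⟨hn0⟩
  have hn1 : ¬ orderOf w ∣ 1 := by
    intro h1
    exact hw1 (orderOf_eq_one_iff.1 (Nat.dvd_one.1 h1))
  have hprim : IsPrimitiveRoot w (orderOf w) := IsPrimitiveRoot.orderOf w
  have hv := igu_val_one_sub_pow A hprim (ig_val_natCast_of_dvd A hM hn) hn1
  rw [pow_one] at hv
  have hyv : A.valuation y = 1 := by
    have h1 : (A.valuation y) ^ M = 1 := by rw [← map_pow, hy, map_one]
    exact (pow_eq_one_iff_left hM0).mp h1
  have e : x - y = -(y * (1 - w)) := by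
    rw [hw]
    field_simp
    ring
  rw [e, Valuation.map_neg, map_mul, hyv, hv, one_mul] at h
  exact lt_irrefl _ h

end roots

/-! ### the series `j(z u^k)` -/

/-- the expansion `j(z u^k) = z⁻¹ u^{-k} + 744 + 196884 z u^k + ⋯`. -/
def igJTw (z : Kbar) (k : ℕ) : LaurentSeries Kbar :=
  HahnSeries.single (-(k : ℤ)) (1 : Kbar) *
    HahnSeries.ofPowerSeries ℤ Kbar
      (twist z k (PowerSeries.map (Int.castRingHom Kbar) ModularCurve.jNum))

theorem igJTw_coeff_lead (z : Kbar) {k : ℕ} (hk : 0 < k) :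
    (igJTw z k).coeff (-(k : ℤ)) = z⁻¹ := by
  unfold igJTw
  rw [coeff_lead z k hk, coeff_jNum_zero, one_mul]

theorem igJTw_coeff_below (z : Kbar) (k : ℕ) {n : ℤ} (hn : n < -(k : ℤ)) :
    (igJTw z k).coeff n = 0 :=
  coeff_below z k _ hn

section int

variable (A : ValuationSubring Kbar)

theorem igJTw_isIntK {M : ℕ} (hM0 : M ≠ 0) {z : Kbar} (hz : z ^ M = 1) (k : ℕ) :
    IsIntK A (igJTw z k) := by
  have : NeZero M := ⟨hM0⟩
  have hzv : A.valuation z = 1 := igu_val_zeta A hz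
  have hzinv : z⁻¹ ∈ A := by
    apply A.mem_of_valuation_le_one
    rw [map_inv₀, hzv, inv_one]
  have hzmem : ∀ i : ℕ, z ^ i ∈ A := fun i =>
    A.mem_of_valuation_le_one _ (igu_val_pow A hz i).le
  intro n
  unfold igJTw
  rw [HahnSeries.coeff_single_mul, one_mul]
  have h : (HahnSeries.ofPowerSeries ℤ Kbar
      (twist z k (PowerSeries.map (Int.castRingHom Kbar) ModularCurve.jNum))).coeff (n - -(k : ℤ))
      = if n - -(k : ℤ) < 0 then 0 else PowerSeries.coeff (n - -(k : ℤ)).natAbs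
          (twist z k (PowerSeries.map (Int.castRingHom Kbar) ModularCurve.jNum)) :=
    PowerSeries.coeff_coe _ _
  rw [h]
  split_ifs
  · exact A.zero_mem
  · rw [coeff_twist]
    split_ifs
    · refine mul_mem (mul_mem ?_ (hzmem _)) hzinv
      rw [PowerSeries.coeff_map, eq_intCast]
      exact intCast_mem A _
    · exact A.zero_mem

/-- `k` and `z` are determined by `j(z u^k)` modulo `𝔪_A`. -/
theorem igJTw_eq_of_isRedZero {M : ℕ} (hM0 : M ≠ 0) (hM : A.valuation (M : Kbar) = 1)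
    {z z₂ : Kbar} (hz : z ^ M = 1) (hz₂ : z₂ ^ M = 1) {k k₂ : ℕ} (hk : 0 < k) (hk₂ : 0 < k₂)
    (H : IsRedZero A (igJTw z k - igJTw z₂ k₂)) : k = k₂ ∧ z = z₂ := by
  have : NeZero M := ⟨hM0⟩
  have hzv : A.valuation z⁻¹ = 1 := by rw [map_inv₀, igu_val_zeta A hz, inv_one]
  have hzv₂ : A.valuation z₂⁻¹ = 1 := by rw [map_inv₀, igu_val_zeta A hz₂, inv_one]
  have hkk : k = k₂ := by
    rcases lt_trichotomy k k₂ with hlt | heq | hgt
    · exfalso
      have h := H (-(k₂ : ℤ))
      rw [HahnSeries.coeff_sub, igJTw_coeff_lead z₂ hk₂, igJTw_coeff_below z k (by omega),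
        zero_sub, Valuation.map_neg, hzv₂] at h
      exact lt_irrefl _ h
    · exact heq
    · exfalso
      have h := H (-(k : ℤ))
      rw [HahnSeries.coeff_sub, igJTw_coeff_lead z hk, igJTw_coeff_below z₂ k₂ (by omega),
        sub_zero, hzv] at h
      exact lt_irrefl _ h
  refine ⟨hkk, ?_⟩
  subst hkk
  have h := H (-(k : ℤ))
  rw [HahnSeries.coeff_sub, igJTw_coeff_lead z hk, igJTw_coeff_lead z₂ hk] at h
  have hinv : z⁻¹ = z₂⁻¹ :=
    ig_root_eq_of_val_sub_lt A hM0 hM (by rw [inv_pow, hz, inv_one])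
      (by rw [inv_pow, hz₂, inv_one]) h
  exact inv_injective hinv

end int

/-! ### the translates of `j_d` -/

/-- every translate of `j_d`, `d ∣ M`, has an expansion `j(z u^k)` with `z ^ M = 1`. -/
theorem ig_exists_hasExp_smul_jd (M d : ℕ) [NeZero M] [NeZero d] (hd : d ∣ M) (g : SL(2, ℤ)) :
    ∃ (z : Kbar) (k : ℕ), z ^ M = 1 ∧ 0 < k ∧ HasExp M (g • jd d) (igJTw z k) := by
  obtain ⟨γ', a, e, b, ha, he, hae, -, hτ⟩ := exists_hermite' d g⁻¹
  have hed : e ∣ M := (Dvd.intro_left a hae).trans hd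
  obtain ⟨m', hm'⟩ := hed
  have hm'pos : 0 < m' := by
    rcases Nat.eq_zero_or_pos m' with h0 | h0
    · rw [h0, mul_zero] at hm'
      exact absurd hm' (NeZero.ne M)
    · exact h0
  obtain ⟨z, hz⟩ := exists_iota_eq_of_pow_eq_one he (exp_two_pi_I_mul_div_pow b e he)
  have hz1 : ‖iota z‖ = 1 := by rw [hz]; exact norm_exp_two_pi_I_mul_div b e
  have hze : z ^ e = 1 := by
    apply iota_injective
    rw [map_pow, hz, exp_two_pi_I_mul_div_pow b e he, map_one]
  have hzM : z ^ M = 1 := by rw [hm', pow_mul, hze, one_pow]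
  have hφ : ∀ τ : ℍ, uParam 1 (aff a e b ha he τ) = iota z * uParam M τ ^ (a * m') := by
    intro τ
    rw [uParam_one_aff M a e m' b ha he hm' hm'pos, hz]
  have h2 := hasExp_subst hasPExp_jFun (aff a e b ha he) z hz1 (a * m')
    (Nat.mul_pos ha hm'pos) hφ
  have hfun : (g • jd d : Fun) = fun τ => jFun (aff a e b ha he τ) := by
    funext τ
    show jFun (scale d (g⁻¹ • τ)) = _
    rw [hτ τ, jFun_smul_pt]
  rw [← hfun] at h2
  exact ⟨z, a * m', hzM, Nat.mul_pos ha hm'pos, h2⟩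

/-- **IG-J0**. -/
theorem igJ0 : IgJ0Statement := by
  intro M _ p hp hpM A hA
  have hM0 : M ≠ 0 := NeZero.ne M
  have hAp : A.valuation ((p : ℕ) : Kbar) < 1 := hA
  have hM : A.valuation (M : Kbar) = 1 := ig_val_natCast_eq_one A hp hAp hpM
  constructor
  · intro d _ hd g a ha
    obtain ⟨z, k, hz, -, hexp⟩ := ig_exists_hasExp_smul_jd M d hd g
    rw [HasExp.unique ha hexp]
    exact igJTw_isIntK A hM0 hz k
  · intro g g' a a' ha ha' H
    obtain ⟨z, k, hz, hk, hexp⟩ := ig_exists_hasExp_smul_jd M M dvd_rfl g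
    obtain ⟨z₂, k₂, hz₂, hk₂, hexp₂⟩ := ig_exists_hasExp_smul_jd M M dvd_rfl g'
    rw [HasExp.unique ha hexp, HasExp.unique ha' hexp₂] at H
    obtain ⟨hkk, hzz⟩ := igJTw_eq_of_isRedZero A hM0 hM hz hz₂ hk hk₂ H
    rw [← hkk, ← hzz] at hexp₂
    have hfun : g • jd M = g' • jd M := HasExp.fun_unique hexp hexp₂
    have h1 : (g⁻¹ * g') • jd M = jd M := by
      rw [mul_smul, ← hfun, inv_smul_smul]
    exact (smul_jd_eq_iff M _).1 h1

end Fermat.Agent.S48WG
end
end MergeWrap_S48_W_G_Red_Igusa_J0
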